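import Mathlib

/-!
# S15-RED, abstract layer: "curves" given by a family of order functions

`k` an algebraically closed field of characteristic `q`, `κ / k` a field, `S` a set of "points",
`ord s : κ → ℤ` the order functions.  This is all we need in order to prove the finiteness of the
group of Frobenius-invariant divisor classes (class number of a function field over a finite
field), without Riemann-Roch.
-/

set_option autoImplicit false

noncomputable section

namespace Fermat.Agent.S15.Red

/-- a field `κ / k` with a family of discrete valuations (values at `0` are junk) with residue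
field `k`, satisfying the product formula, and without nonconstant regular functions. -/
structure OrdSys (k κ S : Type) [Field k] [Field κ] [Algebra k κ] where
  ord : S → κ → ℤ
  ord_mul : ∀ s u v, u ≠ 0 → v ≠ 0 → ord s (u * v) = ord s u + ord s v
  ord_add : ∀ s u v, u ≠ 0 → v ≠ 0 → u + v ≠ 0 → min (ord s u) (ord s v) ≤ ord s (u + v)
  ord_algebraMap : ∀ s (c : k), c ≠ 0 → ord s (algebraMap k κ c) = 0
  finite : ∀ u, u ≠ 0 → {s | ord s u ≠ 0}.Finite
  sum_eq_zero : ∀ u, u ≠ 0 → ∑ᶠ s, ord s u = 0
  resid : ∀ s u, u ≠ 0 → ord s u = 0 →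
    ∃ c : k, u = algebraMap k κ c ∨ 0 < ord s (u - algebraMap k κ c)

variable {k κ S : Type} [Field k] [Field κ] [Algebra k κ]

/-- the degree of a divisor. -/
def dg {S : Type} (D : S →₀ ℤ) : ℤ := D.sum fun _ n => n

namespace OrdSys

variable (X : OrdSys k κ S)

/-- the divisor of a function. -/
def dv (u : κ) : S →₀ ℤ :=
  open Classical in
  if h : u = 0 then 0 else Finsupp.ofSupportFinite (fun s => X.ord s u) (X.finite u h)

/-- the space `L(D)`, as a set. -/
def LSet (D : S →₀ ℤ) : Set κ := {u | u = 0 ∨ ∀ s, 0 ≤ X.ord s u + D s}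

end OrdSys

/-- a Frobenius on an `OrdSys`: `φ` acts on functions, `ψ` on points. -/
structure FrobSys (X : OrdSys k κ S) (q : ℕ) where
  φ : κ ≃+* κ
  ψ : S ≃ S
  φ_algebraMap : ∀ c : k, φ (algebraMap k κ c) = algebraMap k κ (c ^ q)
  ord_φ : ∀ s u, X.ord (ψ s) (φ u) = X.ord s u
  finite_fixed : ∀ n : ℕ, 0 < n → {s | (ψ ^ n) s = s}.Finite

end Fermat.Agent.S15.Red
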