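import Mathlib

/-!
# S15-RED, abstract layer: Lang's lemma for `q`-semilinear maps
-/

set_option autoImplicit false

noncomputable section

namespace Fermat.Agent.S15.Red

open Polynomial in
/-- the polynomials `P 0 = a 0 X`, `P (i+1) = (P i)^q + a (i+1) X`. -/
def Lang_P {k : Type} [Field k] (q : ℕ) (a : ℕ → k) : ℕ → Polynomial k
  | 0 => C (a 0) * X
  | i + 1 => Lang_P q a i ^ q + C (a (i + 1)) * X

open Polynomial in
theorem Lang_P_natDegree {k : Type} [Field k] (q : ℕ) (hq : 1 < q) (a : ℕ → k) (ha : a 0 ≠ 0)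
    (i : ℕ) : (Lang_P q a i).natDegree = q ^ i := by
  induction i with
  | zero => simp [Lang_P, natDegree_C_mul_X _ ha]
  | succ i ih =>
    have h1 : (Lang_P q a i ^ q).natDegree = q ^ (i + 1) := by
      rw [natDegree_pow, ih, pow_succ, mul_comm]
    have h2 : (C (a (i + 1)) * X : Polynomial k).natDegree < (Lang_P q a i ^ q).natDegree := by
      rw [h1]
      refine lt_of_le_of_lt ((natDegree_C_mul_le _ _).trans natDegree_X_le) ?_
      exact Nat.one_lt_pow (Nat.succ_ne_zero i) hq
    show (Lang_P q a i ^ q + C (a (i + 1)) * X).natDegree = _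
    rw [natDegree_add_eq_left_of_natDegree_lt h2, h1]

open Polynomial in
theorem Lang_P_coeff_zero {k : Type} [Field k] (q : ℕ) (hq : 1 < q) (a : ℕ → k) (i : ℕ) :
    (Lang_P q a i).coeff 0 = 0 := by
  induction i with
  | zero => simp [Lang_P]
  | succ i ih =>
    rw [coeff_zero_eq_eval_zero] at ih ⊢
    show eval 0 (Lang_P q a i ^ q + C (a (i + 1)) * X) = 0
    rw [eval_add, eval_pow, ih, zero_pow (by omega)]
    simp

open Polynomial in
/-- a nonzero solution of `y = P(y)^q`. -/
theorem Lang_exists_root {k : Type} [Field k] [IsAlgClosed k] (q : ℕ) (hq : 1 < q)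
    (P : Polynomial k) (hP : P ≠ 0) (hP0 : P.coeff 0 = 0) :
    ∃ y : k, y ≠ 0 ∧ P.eval y ^ q = y := by
  have hPQ : P = divX P * X := by
    conv_lhs => rw [← divX_mul_X_add P, hP0, C_0, add_zero]
  set Q := divX P with hQ
  have hQ0 : Q ≠ 0 := by
    intro h0
    rw [h0, zero_mul] at hPQ
    exact hP hPQ
  set T : Polynomial k := X ^ (q - 1) * Q ^ q with hT
  have hT0 : T ≠ 0 := mul_ne_zero (pow_ne_zero _ X_ne_zero) (pow_ne_zero _ hQ0)
  have hTdeg : 0 < T.natDegree := by
    rw [hT, natDegree_mul (pow_ne_zero _ X_ne_zero) (pow_ne_zero _ hQ0), natDegree_X_pow]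
    omega
  have hTdeg' : (1 : Polynomial k).degree < T.degree := by
    rw [degree_one]
    exact natDegree_pos_iff_degree_pos.1 hTdeg
  have hS : (T - 1).degree ≠ 0 := by
    rw [degree_sub_eq_left_of_degree_lt hTdeg']
    exact (natDegree_pos_iff_degree_pos.1 hTdeg).ne'
  obtain ⟨y, hy⟩ := IsAlgClosed.exists_root (T - 1) hS
  have hy1 : y ^ (q - 1) * Q.eval y ^ q = 1 := by
    have : (T - 1).eval y = 0 := hy
    rw [eval_sub, eval_one, hT, eval_mul, eval_pow, eval_pow, eval_X, sub_eq_zero] at this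
    exact this
  refine ⟨y, ?_, ?_⟩
  · rintro rfl
    rw [zero_pow (by omega), zero_mul] at hy1
    exact zero_ne_one hy1
  · rw [hPQ, eval_mul, eval_X, mul_pow]
    have hq1 : y ^ q = y ^ (q - 1) * y := by
      rw [← pow_succ]
      congr 1
      omega
    rw [hq1]
    calc Q.eval y ^ q * (y ^ (q - 1) * y) = (y ^ (q - 1) * Q.eval y ^ q) * y := by ring
      _ = y := by rw [hy1, one_mul]

/-- the cyclic case: `V` has the basis `e, Φ e, …, Φ^(m-1) e`, written in coordinates: given
`a : Fin (m+1) → k` with `a 0 ≠ 0` there is `x ≠ 0` with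
`x 0 = a 0 * (x m)^q` and `x (i+1) = (x i)^q + a (i+1) * (x m)^q`. -/
theorem Lang_exists_coords {k : Type} [Field k] [IsAlgClosed k] (q : ℕ) (hq : 1 < q)
    [CharP k q] (m : ℕ) (a : Fin (m + 1) → k) (ha : a 0 ≠ 0) :
    ∃ x : Fin (m + 1) → k, x ≠ 0 ∧ x 0 = a 0 * x (Fin.last m) ^ q ∧
      ∀ i : Fin m, x i.succ = x i.castSucc ^ q + a i.succ * x (Fin.last m) ^ q := by
  let a' : ℕ → k := fun j => if h : j < m + 1 then a ⟨j, h⟩ else 0
  have ha' : ∀ j : Fin (m + 1), a' j = a j := fun j => dif_pos j.2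
  have ha0 : a' 0 ≠ 0 := by
    have := ha' 0
    rw [Fin.val_zero] at this
    rwa [this]
  have hPm : Lang_P q a' m ≠ 0 := by
    intro h0
    have h1 := Lang_P_natDegree q hq a' ha0 m
    rw [h0, Polynomial.natDegree_zero] at h1
    exact (pow_pos (by omega : 0 < q) m).ne h1
  obtain ⟨y, hy0, hy⟩ := Lang_exists_root q hq _ hPm (Lang_P_coeff_zero q hq a' m)
  refine ⟨fun i => (Lang_P q a' i).eval y, ?_, ?_, ?_⟩
  · intro h0
    have h1 := congrFun h0 0
    simp only [Fin.val_zero, Lang_P, Polynomial.eval_mul, Polynomial.eval_C, Polynomial.eval_X,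
      Pi.zero_apply] at h1
    exact (mul_ne_zero ha0 hy0) h1
  · simp only [Fin.val_zero, Fin.val_last, hy]
    have := ha' 0
    rw [Fin.val_zero] at this
    simp [Lang_P, this]
  · intro i
    simp only [Fin.val_succ, Fin.val_castSucc, Fin.val_last, hy]
    have := ha' i.succ
    rw [Fin.val_succ] at this
    simp [Lang_P, this]

/-- **Lang's lemma**: an injective `q`-semilinear endomorphism of a nonzero finite dimensional
vector space over an algebraically closed field of characteristic `q` has a nonzero fixed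
vector. -/
theorem exists_fixed_of_semilinear {k V : Type} [Field k] [IsAlgClosed k] (q : ℕ) [Fact q.Prime]
    [CharP k q] [AddCommGroup V] [Module k V] [Module.Finite k V] [Nontrivial V]
    (Φ : V →+ V) (hΦ : ∀ (c : k) (v : V), Φ (c • v) = c ^ q • Φ v)
    (hinj : Function.Injective Φ) : ∃ v : V, v ≠ 0 ∧ Φ v = v := by
  classical
  have hq : 1 < q := (Fact.out : q.Prime).one_lt
  obtain ⟨v₀, hv₀⟩ := exists_ne (0 : V)
  let e : ℕ → V := fun i => Φ^[i] v₀
  have he : ∀ i, Φ (e i) = e (i + 1) := fun i => (Function.iterate_succ_apply' Φ i v₀).symm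
  let p : ℕ → Prop := fun n => LinearIndependent k (fun i : Fin n => e i)
  have hex : ∃ n, ¬ p n := by
    refine ⟨Module.finrank k V + 1, fun h => ?_⟩
    have := h.fintype_card_le_finrank
    rw [Fintype.card_fin] at this
    omega
  have hp0 : p 0 := linearIndependent_empty_type
  have hp1 : p 1 := by
    show LinearIndependent k (fun i : Fin 1 => e i)
    rw [linearIndependent_unique_iff]
    exact hv₀
  have hfind := Nat.find_spec hex
  have hmin : ∀ n, n < Nat.find hex → p n := fun n hn => not_not.1 (Nat.find_min hex hn)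
  obtain ⟨m, hm⟩ : ∃ m, Nat.find hex = m + 2 := by
    have h0 : Nat.find hex ≠ 0 := fun h => by rw [h] at hfind; exact hfind hp0
    have h1 : Nat.find hex ≠ 1 := fun h => by rw [h] at hfind; exact hfind hp1
    exact ⟨Nat.find hex - 2, by omega⟩
  have hpm : p (m + 1) := hmin _ (by omega)
  have hnp : ¬ p (m + 2) := hm ▸ hfind
  -- `e (m+1)` is a combination of the `e i`, `i ≤ m`
  have hspan : e (m + 1) ∈ Submodule.span k (Set.range fun i : Fin (m + 1) => e i) := by
    by_contra hcon
    apply hnp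
    show LinearIndependent k (fun i : Fin (m + 2) => e i)
    rw [linearIndependent_finSucc']
    exact ⟨hpm, hcon⟩
  obtain ⟨a, ha⟩ := (Submodule.mem_span_range_iff_exists_fun k).1 hspan
  -- `e m` is not a combination of the `e i`, `i < m`
  have hnspan : e m ∉ Submodule.span k (Set.range fun i : Fin m => e i) := by
    have : LinearIndependent k (fun i : Fin (m + 1) => e i) := hpm
    rw [linearIndependent_finSucc'] at this
    exact this.2
  have ha0 : a 0 ≠ 0 := by
    intro h0
    apply hnspan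
    rw [Fin.sum_univ_succ, h0, zero_smul, zero_add] at ha
    choose b hb using fun i : Fin m => IsAlgClosed.exists_pow_nat_eq (a i.succ) (by omega : 0 < q)
    have h1 : Φ (∑ i : Fin m, b i • e i) = Φ (e m) := by
      rw [map_sum, he, ← ha]
      refine Finset.sum_congr rfl fun i _ => ?_
      rw [hΦ, hb, he, Fin.val_succ]
    rw [← hinj h1]
    exact Submodule.sum_mem _ fun i _ => Submodule.smul_mem _ _ (Submodule.subset_span ⟨i, rfl⟩)
  obtain ⟨x, hx0, hx1, hx2⟩ := Lang_exists_coords q hq m a ha0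
  refine ⟨∑ i : Fin (m + 1), x i • e i, ?_, ?_⟩
  · intro h0
    exact hx0 (funext fun i => Fintype.linearIndependent_iff.1 hpm x h0 i)
  · rw [map_sum]
    have h1 : ∀ i : Fin (m + 1), Φ (x i • e i) = x i ^ q • e (i + 1) := fun i => by rw [hΦ, he]
    simp only [h1]
    rw [Fin.sum_univ_castSucc, Fin.val_last, ← ha, Finset.smul_sum]
    conv_rhs => rw [Fin.sum_univ_succ]
    rw [Fin.sum_univ_succ (fun i : Fin (m + 1) => x (Fin.last m) ^ q • a i • e i), add_left_comm,
      ← Finset.sum_add_distrib]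
    congr 1
    · rw [smul_smul, hx1, mul_comm]
    · refine Finset.sum_congr rfl fun i _ => ?_
      rw [hx2 i, add_smul, smul_smul, Fin.val_castSucc, Fin.val_succ, mul_comm (a i.succ)]

end Fermat.Agent.S15.Red
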